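/-
S44, block F, node FNZ (owner helper44), leaf A2 (Mathlib only): the counting argument.
-/
import Mathlib

set_option autoImplicit false

noncomputable section

namespace Fermat.Agent.S44.F.NZ

open Polynomial

/-- `V` with the scalars acting through the Frobenius. -/
def Tw (_p : ℕ) (V : Type*) : Type _ := V

instance Tw.instAddCommGroup (p : ℕ) (V : Type*) [AddCommGroup V] : AddCommGroup (Tw p V) :=
  inferInstanceAs (AddCommGroup V)

instance Tw.instModule (p : ℕ) [Fact p.Prime] (L V : Type*) [Field L] [CharP L p] [AddCommGroup V]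
    [Module L V] : Module L (Tw p V) :=
  Module.compHom V (frobenius L p)

/-- the identity map -/
def Tw.val (p : ℕ) (V : Type*) [AddCommGroup V] : Tw p V →+ V := AddMonoidHom.id V

theorem Tw.val_smul (p : ℕ) [Fact p.Prime] {L V : Type*} [Field L] [CharP L p] [AddCommGroup V]
    [Module L V] (c : L) (x : Tw p V) : Tw.val p V (c • x) = (c ^ p) • Tw.val p V x := rfl

theorem Tw.val_injective (p : ℕ) (V : Type*) [AddCommGroup V] :
    Function.Injective (Tw.val p V) := fun _ _ h => h

theorem Count.li_smul {L Ω : Type*} [Field L] [Field Ω] [Algebra L Ω]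
    (κ : IntermediateField L Ω) {ι ι' : Type*} (b : ι → κ) (hb : LinearIndependent L b)
    (c : ι' → Ω) (hc : LinearIndependent κ c) :
    LinearIndependent L (fun ia : ι × ι' => b ia.1 • c ia.2) :=
  linearIndependent_smul (R := L) (S := κ) (A := Ω) hb hc

/-- A2 : the counting argument. -/
theorem mem_of_pow_mem {L Ω : Type*} [Field L] [Field Ω] [Algebra L Ω] (p : ℕ) [Fact p.Prime]
    [CharP L p] [CharP Ω p] (j : L) (hj : ∀ z : Ω, z ^ p ≠ algebraMap L Ω j)
    (hL : ∀ x : L, ∃ h : L[X], h.natDegree < p ∧ h.eval₂ (frobenius L p) j = x)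
    (κ : IntermediateField L Ω) [FiniteDimensional L κ] (y : Ω) (hy : y ^ p ∈ κ) : y ∈ κ := by
  classical
  by_contra hyκ
  have hp : p.Prime := Fact.out
  -- the powers of `y` are independent over `κ`
  have hirr : Irreducible (X ^ p - C (⟨y ^ p, hy⟩ : κ)) := by
    apply X_pow_sub_C_irreducible_of_prime hp
    intro b hb
    have h1 : ((b : Ω) - y) ^ p = 0 := by
      have h2 : (b : Ω) ^ p = y ^ p := congrArg (fun z : κ => (z : Ω)) hb
      rw [sub_pow_char, h2, sub_self]
    have h3 : (b : Ω) = y := sub_eq_zero.1 (pow_eq_zero_iff hp.ne_zero |>.1 h1)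
    exact hyκ (h3 ▸ b.2)
  have hmin : minpoly κ y = X ^ p - C (⟨y ^ p, hy⟩ : κ) := by
    refine (minpoly.eq_of_irreducible_of_monic hirr ?_ (monic_X_pow_sub_C _ hp.ne_zero)).symm
    rw [map_sub, map_pow, aeval_X, aeval_C]
    exact sub_self _
  have hdeg : (minpoly κ y).natDegree = p := by rw [hmin, natDegree_X_pow_sub_C]
  have hliy : LinearIndependent κ (fun a : Fin p => y ^ (a : ℕ)) := by
    have := linearIndependent_pow (K := κ) y
    rwa [hdeg] at this
  -- a basis of `κ` over `L`
  set n := Module.finrank L κ with hn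
  let b := Module.finBasis L κ
  have hli : LinearIndependent L (fun ia : Fin n × Fin p => b ia.1 • y ^ (ia.2 : ℕ)) :=
    Count.li_smul κ b b.linearIndependent (fun a : Fin p => y ^ (a : ℕ)) hliy
  -- the `p`-th powers, in the twisted space
  let w : Fin n × Fin p → Tw p κ := fun ia => (b ia.1 ^ p * (⟨y ^ p, hy⟩ : κ) ^ (ia.2 : ℕ) : κ)
  have hw : ∀ c : Fin n × Fin p → L, ((Tw.val p κ (∑ ia, c ia • w ia) : κ) : Ω) =
      (∑ ia, c ia • (b ia.1 • y ^ (ia.2 : ℕ))) ^ p := by
    intro c
    rw [map_sum, AddSubmonoidClass.coe_finsetSum, sum_pow_char]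
    refine Finset.sum_congr rfl fun ia _ => ?_
    rw [Tw.val_smul]
    change ((c ia ^ p) • (b ia.1 ^ p * (⟨y ^ p, hy⟩ : κ) ^ (ia.2 : ℕ) : κ) : κ).1 = _
    rw [IntermediateField.coe_smul, IntermediateField.coe_mul, IntermediateField.coe_pow,
      IntermediateField.coe_pow, Algebra.smul_def, Algebra.smul_def, Algebra.smul_def, map_pow]
    change _ = (algebraMap L Ω (c ia) * ((b ia.1 : Ω) * y ^ (ia.2 : ℕ))) ^ p
    ring
  have hwli : LinearIndependent L w := by
    rw [Fintype.linearIndependent_iff]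
    intro c hc
    have h1 := hw c
    rw [hc, map_zero, ZeroMemClass.coe_zero] at h1
    have h2 : ∑ ia, c ia • (b ia.1 • y ^ (ia.2 : ℕ)) = 0 :=
      (pow_eq_zero_iff hp.ne_zero).1 h1.symm
    exact Fintype.linearIndependent_iff.1 hli c h2
  -- a spanning family of the twisted space
  let s : Fin n × Fin p → Tw p κ := fun ia => (algebraMap L κ j ^ (ia.2 : ℕ) * b ia.1 : κ)
  have hspan : Submodule.span L (Set.range s) = ⊤ := by
    rw [eq_top_iff]
    intro x _
    choose h hhd hh using hL
    rw [Submodule.mem_span_range_iff_exists_fun]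
    refine ⟨fun ia => (h (b.repr (Tw.val p κ x) ia.1)).coeff (ia.2 : ℕ), ?_⟩
    apply Tw.val_injective
    rw [map_sum, Fintype.sum_prod_type]
    conv_rhs => rw [← b.sum_repr (Tw.val p κ x)]
    refine Finset.sum_congr rfl fun i _ => ?_
    conv_rhs => rw [← hh (b.repr (Tw.val p κ x) i), eval₂_eq_sum_range' _ (hhd _),
      Finset.sum_smul, Finset.sum_range]
    refine Finset.sum_congr rfl fun a _ => ?_
    rw [Tw.val_smul]
    change _ • (algebraMap L κ j ^ (a : ℕ) * b i : κ) = _
    rw [frobenius_def, Algebra.smul_def, Algebra.smul_def, map_mul, map_pow, map_pow]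
    ring
  have hfin : Module.Finite L (Tw p κ) :=
    ⟨⟨Finset.univ.image s, by rw [Finset.coe_image, Finset.coe_univ, Set.image_univ, hspan]⟩⟩
  have hle : Module.finrank L (Tw p κ) ≤ Fintype.card (Fin n × Fin p) := by
    have h1 := finrank_range_le_card (R := L) s
    rwa [Set.finrank, hspan, finrank_top] at h1
  have hcard : Fintype.card (Fin n × Fin p) = Module.finrank L (Tw p κ) :=
    le_antisymm hwli.fintype_card_le_finrank hle
  have htop := hwli.span_eq_top_of_card_eq_finrank' hcard
  have hall : ∀ x : Tw p κ, x ∈ Submodule.span L (Set.range w) := fun x => by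
    rw [htop]
    exact Submodule.mem_top
  obtain ⟨c, hc⟩ := (Submodule.mem_span_range_iff_exists_fun L).1 (hall (algebraMap L κ j : κ))
  have h1 := hw c
  rw [hc] at h1
  exact hj _ h1.symm

end Fermat.Agent.S44.F.NZ

end
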