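/-
S44, block F, node FNZ (owner helper44), leaf A1 (Mathlib only).
`L = k(j)`, `k` perfect of characteristic `p`: every element of `L` is `∑_{a < p} c_a ^ p j ^ a`.
-/
import Mathlib

set_option autoImplicit false

noncomputable section

namespace Fermat.Agent.S44.F.NZ

open Polynomial

/-- A1.  PROOF.  First without the degree bound: `x ∈ adjoin k {j}` (`hgen ▸ mem_top`), induction with
`IntermediateField.adjoin_induction` on `∃ f : L[X], f.eval₂ (frobenius L p) j = x`:
`j ↦ X`; `algebraMap r ↦ C (algebraMap s)` with `s ^ p = r` (`surjective_frobenius k p`);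
`add, neg, mul ↦ eval₂_add, eval₂_neg, eval₂_mul`; `x⁻¹ = x ^ (p - 1) * (x⁻¹) ^ p ↦ f ^ (p - 1) * C x⁻¹`.
Then replace `f` by `f %ₘ (X ^ p - C j)`: `eval₂ (frobenius L p) j (X ^ p - C j) = j ^ p - j ^ p = 0`
(`modByMonic_add_div`, `monic_X_pow_sub_C`, `natDegree_modByMonic_lt`). -/
theorem exists_frob_poly {k L : Type*} [Field k] [Field L] [Algebra k L] (p : ℕ) [Fact p.Prime]
    [CharP k p] [CharP L p] [PerfectField k] (j : L)
    (hgen : IntermediateField.adjoin k {j} = ⊤) (x : L) :
    ∃ h : L[X], h.natDegree < p ∧ h.eval₂ (frobenius L p) j = x := by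
  have hp : p.Prime := Fact.out
  have hx : x ∈ IntermediateField.adjoin k {j} := hgen ▸ IntermediateField.mem_top
  have key : ∃ f : L[X], f.eval₂ (frobenius L p) j = x := by
    induction hx using IntermediateField.adjoin_induction with
    | mem y hy =>
      rw [Set.mem_singleton_iff] at hy
      subst hy
      exact ⟨X, eval₂_X _ _⟩
    | algebraMap r =>
      obtain ⟨s, hs⟩ := surjective_frobenius k p r
      refine ⟨C (algebraMap k L s), ?_⟩
      rw [eval₂_C, frobenius_def, ← map_pow, ← frobenius_def, hs]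
    | add y z _ _ hy hz =>
      obtain ⟨f, rfl⟩ := hy
      obtain ⟨g, rfl⟩ := hz
      exact ⟨f + g, eval₂_add _ _⟩
    | inv y _ hy =>
      obtain ⟨f, hf⟩ := hy
      refine ⟨f ^ (p - 1) * C y⁻¹, ?_⟩
      rw [eval₂_mul, eval₂_pow, eval₂_C, hf, frobenius_def]
      by_cases hy0 : y = 0
      · rw [hy0, inv_zero, zero_pow hp.ne_zero, mul_zero]
      · have e : y⁻¹ ^ p = y⁻¹ ^ (p - 1) * y⁻¹ := by
          rw [← pow_succ, Nat.sub_add_cancel hp.one_le]
        rw [e, ← mul_assoc, ← mul_pow, mul_inv_cancel₀ hy0, one_pow, one_mul]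
    | mul y z _ _ hy hz =>
      obtain ⟨f, rfl⟩ := hy
      obtain ⟨g, rfl⟩ := hz
      exact ⟨f * g, eval₂_mul _ _⟩
  obtain ⟨f, hf⟩ := key
  have hm : (X ^ p - C j : L[X]).Monic := monic_X_pow_sub_C j hp.ne_zero
  refine ⟨f %ₘ (X ^ p - C j), ?_, ?_⟩
  · have h1 := natDegree_modByMonic_lt f hm (by
      intro h1
      have h2 := congrArg natDegree h1
      rw [natDegree_X_pow_sub_C, natDegree_one] at h2
      exact hp.ne_zero h2)
    rwa [natDegree_X_pow_sub_C] at h1
  · have h2 := congrArg (eval₂ (frobenius L p) j) (modByMonic_add_div f (X ^ p - C j))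
    rw [eval₂_add, eval₂_mul, eval₂_sub, eval₂_pow, eval₂_X, eval₂_C, frobenius_def, sub_self,
      zero_mul, add_zero, hf] at h2
    exact h2

end Fermat.Agent.S44.F.NZ

end
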