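/-
S44, block F, node FNZ (owner helper44), leaf A3 (Mathlib only): packaging of A1 + A2.
-/
import Fermat.Agent.S44.F.NZ.FrobPoly
import Fermat.Agent.S44.F.NZ.Count

set_option autoImplicit false

noncomputable section

namespace Fermat.Agent.S44.F.NZ

open Polynomial

/-- A3.  PROOF.  `L := ↥(adjoin k {j})`, `g : L := ⟨j, mem_adjoin_simple_self⟩` (`AdjoinSimple.gen`).
`CharP L p`, `CharP Ω p` from `charP_of_injective_algebraMap`.  `adjoin k {g} = ⊤` in `L`: apply
`IntermediateField.map_injective L.val`, `adjoin_map`, `Set.image_singleton`,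
`← AlgHom.fieldRange_eq_map`, `fieldRange_val`.  `κ := adjoin L S`, finite dimensional by
`IntermediateField.finiteDimensional_adjoin` (`hS.to_subtype`/`Finite S`, `halg _ _ |>.isIntegral`).
`(adjoin L S).restrictScalars k = adjoin k ({j} ∪ S) = adjoin k S`
(`IntermediateField.adjoin_adjoin_left`, `Set.union_eq_self_of_subset_left`), so membership in
`adjoin k S` and in `adjoin L S` are the same (`IntermediateField.mem_restrictScalars`).
Conclude by `mem_of_pow_mem p g hj (exists_frob_poly p g _) κ y`. -/
theorem mem_adjoin_of_pow_mem {k Ω : Type*} [Field k] [Field Ω] [Algebra k Ω] (p : ℕ)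
    [Fact p.Prime] [CharP k p] [PerfectField k] (j : Ω) (hj : ∀ z : Ω, z ^ p ≠ j) (S : Set Ω)
    (hS : S.Finite) (hjS : j ∈ S)
    (halg : ∀ x ∈ S, IsAlgebraic (IntermediateField.adjoin k {j}) x) (y : Ω)
    (hy : y ^ p ∈ IntermediateField.adjoin k S) : y ∈ IntermediateField.adjoin k S := by
  have hcL : CharP (IntermediateField.adjoin k {j}) p :=
    charP_of_injective_algebraMap (algebraMap k (IntermediateField.adjoin k {j})).injective p
  have hcΩ : CharP Ω p := charP_of_injective_algebraMap (algebraMap k Ω).injective p
  have hgen : IntermediateField.adjoin k {IntermediateField.AdjoinSimple.gen k j} = ⊤ := by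
    apply IntermediateField.map_injective (IntermediateField.adjoin k {j}).val
    rw [IntermediateField.adjoin_map, Set.image_singleton, ← AlgHom.fieldRange_eq_map,
      IntermediateField.fieldRange_val]
    rfl
  have hfinS : Finite S := hS.to_subtype
  have hfd : FiniteDimensional (IntermediateField.adjoin k {j})
      (IntermediateField.adjoin (IntermediateField.adjoin k {j}) S) :=
    IntermediateField.finiteDimensional_adjoin fun x hx => (halg x hx).isIntegral
  have hres : (IntermediateField.adjoin (IntermediateField.adjoin k {j}) S).restrictScalars k =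
      IntermediateField.adjoin k S := by
    rw [IntermediateField.adjoin_adjoin_left,
      Set.union_eq_self_of_subset_left (Set.singleton_subset_iff.2 hjS)]
  have hmem : ∀ z : Ω, z ∈ IntermediateField.adjoin k S ↔
      z ∈ IntermediateField.adjoin (IntermediateField.adjoin k {j}) S := by
    intro z
    rw [← hres, IntermediateField.mem_restrictScalars]
  rw [hmem] at hy ⊢
  exact mem_of_pow_mem p (IntermediateField.AdjoinSimple.gen k j) hj
    (exists_frob_poly p (IntermediateField.AdjoinSimple.gen k j) hgen) _ y hy

end Fermat.Agent.S44.F.NZ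

end
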