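/-
S44, block F, node FNZ (owner helper44), leaves C1, C2: the generators `j(q^d)` of `k(X₀(M))`.
-/
import Fermat.Agent.S44.X.Eis.JInt

set_option autoImplicit false

noncomputable section

namespace Fermat.Agent.S44.F.NZ

open ModularCurve

/-- C1.  PROOF: copy `S44.X.Desc.gens_finite` (`S44/X/Desc/Modular.lean`). -/
theorem divisorExpansionsC_finite (K : Type*) [Field K] (M : ℕ) [NeZero M] :
    (divisorExpansionsC K M).Finite := by
  classical
  let g : ℕ → LaurentSeries K := fun e =>
    if h : e = 0 then 0 else (haveI : NeZero e := ⟨h⟩; qExpand K e (jqModC K))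
  refine Set.Finite.subset ((Finset.finite_toSet M.divisors).image g) ?_
  rintro _ ⟨e, he, hd, rfl⟩
  refine ⟨e, ?_, ?_⟩
  · simpa using ⟨hd, NeZero.ne M⟩
  · show (if h : e = 0 then 0 else _) = _
    rw [dif_neg (NeZero.ne e)]

/-- C2.  PROOF: `S44.X.Eis.jInt_exists_field K d` gives a monic `Φ : K[X][X]` with
`eval₂ (aeval (jqModC K)).toRingHom (qExpand K d (jqModC K)) Φ = 0`.  Map the coefficients into
`L := adjoin K {jqModC K}` by `aeval (⟨jqModC K, mem_adjoin_simple_self⟩ : L)`: the image of `Φ` is monic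
(so nonzero) and kills `qExpand K d (jqModC K)` (`Polynomial.eval₂_map`/`aeval_def`, `RingHom.ext`). -/
theorem isAlgebraic_qExpand (K : Type*) [Field K] (d : ℕ) [NeZero d] :
    IsAlgebraic (IntermediateField.adjoin K {jqModC K}) (qExpand K d (jqModC K)) := by
  obtain ⟨Φ, hΦ, h⟩ := Fermat.Agent.S44.X.Eis.jInt_exists_field K d
  let j' : IntermediateField.adjoin K {jqModC K} :=
    ⟨jqModC K, IntermediateField.mem_adjoin_simple_self K (jqModC K)⟩
  let φ : Polynomial K →+* IntermediateField.adjoin K {jqModC K} :=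
    (Polynomial.aeval (R := K) j').toRingHom
  have hφ : (algebraMap (IntermediateField.adjoin K {jqModC K}) (LaurentSeries K)).comp φ =
      (Polynomial.aeval (R := K) (jqModC K)).toRingHom := by
    apply Polynomial.ringHom_ext
    · intro a
      simp [φ]
    · simp [φ, j']
  refine ⟨Φ.map φ, (hΦ.map φ).ne_zero, ?_⟩
  rw [Polynomial.aeval_def, Polynomial.eval₂_map, hφ]
  exact h

end Fermat.Agent.S44.F.NZ

end
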