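/-
S44, block F, node FNZ (owner helper44), leaves B1, B2.  Laurent series in characteristic `p`:
`θ f = 0` implies that `f` is a `p`-th power; `j` is not a `p`-th power.
-/
import Fermat.Agent.S44.F.Theta
import Fermat.Agent.GAL.E.Frob

set_option autoImplicit false

noncomputable section

namespace Fermat.Agent.S44.F.NZ

open ModularCurve

/-- B1.  PROOF.  `theta_coeff`: `(n : k) * f.coeff n = 0`, so `f.coeff n = 0` unless `p ∣ n`
(`CharP.intCast_eq_zero_iff`).  `y := HahnSeries.ofSuppBddBelow (fun m => (frobeniusEquiv k p).symm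
(f.coeff (p * m))) _` (support bounded below: by `min f.order 0`, or `f = 0` apart).  Then
`GAL.E.pow_char_eq_qExpand p y : y ^ p = qExpand k p (coeffMap (frobenius k p) y)`; compare coefficients
with `qExpand_coeff_mul`, `qExpand_coeff_of_not_dvd`, `coeffMap_coeff` (see the proof of
`GAL.E.Frob.pow_char_ofPowerSeries`), `frobenius_apply_frobeniusEquiv_symm`. -/
theorem exists_pow_eq_of_theta_eq_zero {k : Type*} [Field k] (p : ℕ) [Fact p.Prime] [CharP k p]
    [PerfectField k] (f : LaurentSeries k) (hf : theta k f = 0) :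
    ∃ y : LaurentSeries k, y ^ p = f := by
  have hp : p.Prime := Fact.out
  have hppos : (0 : ℤ) < p := by exact_mod_cast hp.pos
  have hcoef : ∀ n : ℤ, ¬ (p : ℤ) ∣ n → f.coeff n = 0 := by
    intro n hn
    have h1 : (theta k f).coeff n = 0 := by rw [hf, HahnSeries.coeff_zero]
    rw [theta_coeff] at h1
    rcases mul_eq_zero.mp h1 with h | h
    · exact absurd ((CharP.intCast_eq_zero_iff k p n).mp h) hn
    · exact h
  have hbdd : BddBelow (Function.support
      (fun m : ℤ => (frobeniusEquiv k p).symm (f.coeff ((p : ℤ) * m)))) := by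
    refine ⟨min f.order 0, fun m hm => ?_⟩
    simp only [Function.mem_support, ne_eq] at hm
    have h1 : f.coeff ((p : ℤ) * m) ≠ 0 := fun h => hm (by rw [h, map_zero])
    have h2 : f.order ≤ (p : ℤ) * m := HahnSeries.order_le_of_coeff_ne_zero h1
    by_cases hm0 : 0 ≤ m
    · exact le_trans (min_le_right _ _) hm0
    · have hm1 : m < 0 := not_le.mp hm0
      have h3 : (p : ℤ) * m ≤ m := by nlinarith
      exact le_trans (min_le_left _ _) (le_trans h2 h3)
  refine ⟨HahnSeries.ofSuppBddBelow _ hbdd, ?_⟩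
  rw [Fermat.Agent.GAL.E.pow_char_eq_qExpand p]
  ext n
  by_cases hn : (p : ℤ) ∣ n
  · obtain ⟨m, rfl⟩ := hn
    rw [qExpand_coeff_mul, coeffMap_coeff]
    show frobenius k p ((frobeniusEquiv k p).symm (f.coeff ((p : ℤ) * m))) = _
    rw [frobenius_apply_frobeniusEquiv_symm]
  · rw [qExpand_coeff_of_not_dvd _ _ hn, hcoef n hn]

/-- B2.  PROOF.  `pow_char_eq_qExpand`, coefficient `-1`: `qExpand_coeff_of_not_dvd` (`¬ (p : ℤ) ∣ -1`)
against `coeff_jqModC_neg_one k : (jqModC k).coeff (-1) = 1`. -/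
theorem pow_ne_jqModC {k : Type*} [Field k] (p : ℕ) [Fact p.Prime] [CharP k p]
    (z : LaurentSeries k) : z ^ p ≠ jqModC k := by
  intro h
  have hp : p.Prime := Fact.out
  have h1 : (z ^ p).coeff (-1) = (jqModC k).coeff (-1) := by rw [h]
  rw [Fermat.Agent.GAL.E.pow_char_eq_qExpand p, coeff_jqModC_neg_one,
    qExpand_coeff_of_not_dvd] at h1
  · exact zero_ne_one h1
  · intro hd
    have h2 : (p : ℤ) ∣ 1 := (Int.dvd_neg).mp hd
    have h3 : p ∣ 1 := by exact_mod_cast h2
    exact hp.one_lt.ne' (Nat.dvd_one.mp h3)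

end Fermat.Agent.S44.F.NZ

end
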