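/-
S44, block F, node FNZ (owner helper44): `ū` not a `p`-th power in `k(X₀(M'))` implies `θ ū ≠ 0`.
-/
import Fermat.Agent.S44.F.Top
import Fermat.Agent.S44.F.NZ.Adjoin
import Fermat.Agent.S44.F.NZ.Series
import Fermat.Agent.S44.F.NZ.Mod
import Fermat.Agent.Lib.InertiaField.Residue

set_option autoImplicit false

noncomputable section

namespace Fermat.Agent.S44.F

open ModularCurve AlgebraicCurve Fermat.Agent.S24 Fermat.Agent.GAL

theorem fNZ : FNZ := by
  intro p M' _ hp A hA ubar hnp hθ
  have : Fact p.Prime := ⟨hp⟩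
  have : CharP (kA A) p := E.charP_residueField A p hp hA
  have : IsAlgClosed (kA A) := Lib.InertiaField.isAlgClosed_residueField A
  obtain ⟨y, hy⟩ := NZ.exists_pow_eq_of_theta_eq_zero p (ubar : LaurentSeries (kA A)) hθ
  have hmem : y ∈ modularFunctionFieldFullC (kA A) M' := by
    refine NZ.mem_adjoin_of_pow_mem p (jqModC (kA A)) (NZ.pow_ne_jqModC p) _
      (NZ.divisorExpansionsC_finite (kA A) M') ?_ ?_ y ?_
    · have := mem_divisorExpansionsC (kA A) M' (one_dvd M')
      rwa [qExpand_one_apply] at this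
    · rintro _ ⟨d, _, -, rfl⟩
      exact NZ.isAlgebraic_qExpand (kA A) d
    · rw [hy]
      exact ubar.2
  exact hnp ⟨⟨y, hmem⟩, Subtype.ext hy.symm⟩

end Fermat.Agent.S44.F

end
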